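import Mathlib
import Fermat.Prelude.Def_FLTPrelim_Ramification
import Fermat.Agent.MUL.Orig.Lib.GaussInt.Interface

/-!
# FrobTrace / Residue: the residue field of a valuation subring of `Q̄` over `ℓ` (owner: see blueprint)
-/

set_option autoImplicit false

namespace Fermat.Agent.FrobTrace

/-- the residue field of `A | ℓ` has characteristic `ℓ` -/
theorem charP_residueField {L : Type*} [Field L] (A : ValuationSubring L) {ℓ : ℕ} [Fact ℓ.Prime]
    (hA : A.LiesOverPrime ℓ) : CharP (IsLocalRing.ResidueField A) ℓ := by
  rw [CharP.charP_iff_prime_eq_zero (Fact.out : ℓ.Prime)]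
  obtain ⟨hmem, hmax⟩ := (ValuationSubring.mem_nonunits_iff_exists_mem_maximalIdeal).mp hA
  have h1 : ((ℓ : A) : L) = (ℓ : L) := by simp
  have h2 : (ℓ : A) = ⟨(ℓ : L), hmem⟩ := Subtype.ext h1
  have h3 : IsLocalRing.residue A (ℓ : A) = 0 := by
    rw [IsLocalRing.residue_eq_zero_iff, h2]
    exact hmax
  rwa [map_natCast] at h3

/-- the residue field of a valuation subring of an algebraically closed field is algebraically closed -/
theorem isAlgClosed_residueField {L : Type*} [Field L] [IsAlgClosed L] (A : ValuationSubring L) :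
    IsAlgClosed (IsLocalRing.ResidueField A) := by
  apply IsAlgClosed.of_exists_root
  intro p hpm hpirr
  -- lift `p` to a monic polynomial over `A`
  have hlift : p ∈ Polynomial.lifts (IsLocalRing.residue A) := by
    rw [Polynomial.mem_lifts]
    exact Polynomial.map_surjective _ IsLocalRing.residue_surjective p
  obtain ⟨q, hq, hqdeg, hqm⟩ := Polynomial.lifts_and_degree_eq_and_monic hlift hpm
  -- a root of `q` in `L`
  have hdeg : (q.map (algebraMap A L)).degree ≠ 0 := by
    rw [Polynomial.degree_map_eq_of_injective (FaithfulSMul.algebraMap_injective A L), hqdeg]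
    exact (Polynomial.degree_pos_of_irreducible hpirr).ne'
  obtain ⟨z, hz⟩ := IsAlgClosed.exists_root (q.map (algebraMap A L)) hdeg
  have hzint : IsIntegral A z := by
    refine ⟨q, hqm, ?_⟩
    rw [← Polynomial.eval_map]
    exact hz
  obtain ⟨a, rfl⟩ := IsIntegrallyClosed.isIntegral_iff.mp hzint
  refine ⟨IsLocalRing.residue A a, ?_⟩
  have hqa : q.eval a = 0 := by
    have h1 : algebraMap A L (q.eval a) = 0 := by
      rw [← Polynomial.eval₂_at_apply, Polynomial.eval₂_eq_eval_map]
      exact hz
    exact (FaithfulSMul.algebraMap_injective A L) (by rw [h1, map_zero])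
  rw [← hq, Polynomial.eval_map, Polynomial.eval₂_at_apply, hqa, map_zero]

end Fermat.Agent.FrobTrace
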